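import Fermat.Agent.S37.Mod.Main
import Fermat.Agent.S37.DivA

/-!
# S15 / T : shared definitions of the end game (parts C, SP, A, F meet here)

Level `p` (prime), `F = FF p` the function field of `X₀(p)` over `ℚ̄`.

* `TD p l`        : the Hecke correspondence `T_l` on divisors of `F` (the one which induces
                    `heckeOperatorBar p l` on `JZero p`, see `S37.heckeOperatorAlong_mk`);
* `Cusp p`        : **the cusp package** (provided by part C): the modular unit `h = Δ(q)/Δ(q^p)`, the two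
                    cusps `pInf`, `pZero`, the Atkin-Lehner involution `w`;
* `Disc0 c A`, `DiscInf c A` : the residue discs of the two cusps modulo a valuation ring `A` of `ℚ̄`:
                    `|h(x)|_A < 1`, resp. `|h(x)|_A > 1`;
* `KDisc S`       : the subgroup of `JZero p` of classes of degree `0` divisors supported in `S`;
* `c0`            : the cuspidal class `[(0) - (∞)]`;
* `FOut p e`      : what the end game consumes from part F (the Eisenstein descent).
-/

set_option autoImplicit false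

open AlgebraicCurve ModularCurve

namespace Fermat.Agent.S15.T

open Fermat.Agent.ES Fermat.Agent.S37 Fermat.Agent.S37.Red

noncomputable section

/-- The Hecke correspondence `T_l` on divisors of `X₀(p)`. -/
def TD (p l : ℕ) [NeZero p] [NeZero l] : Divisor Qb (FF p) →+ Divisor Qb (FF p) :=
  haveI : NeZero (p * l) := ⟨Nat.mul_ne_zero (NeZero.ne p) (NeZero.ne l)⟩
  haveI := hasPrincipalDivisors_FF (p * l)
  Divisor.correspondence (heckeBetaBar Qb p l) (heckeAlphaBar Qb p l) (heckeBetaBarIntegral p l)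
    (heckeAlphaBarIntegral p l)

/-- **The cusp package at level `p`** (to be provided by part C). -/
structure Cusp (p : ℕ) [NeZero p] where
  /-- the integral `q`-expansion of the modular unit `Δ(q)/Δ(q^p) = q^(1-p) ∏ (1-q^n)^24/(1-q^(pn))^24` -/
  H : LaurentSeries ℤ
  H_order : H.order = 1 - (p : ℤ)
  H_lead : H.coeff (1 - (p : ℤ)) = 1
  /-- the coefficient of `q^(2-p)` is `-24` -/
  H_next : H.coeff (2 - (p : ℤ)) = -24
  /-- the modular unit -/
  h : FF p
  h_coe : (h : LaurentSeries Qb) = coeffMap (Int.castRingHom Qb) H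
  /-- the cusp `∞` -/
  pInf : Place Qb (FF p)
  /-- the cusp `0` -/
  pZero : Place Qb (FF p)
  pInf_ord : ∀ f : FF p, f ≠ 0 → pInf.ord f = (f : LaurentSeries Qb).order
  pZero_ord_h : pZero.ord h = (p : ℤ) - 1
  ord_h : ∀ P : Place Qb (FF p), P ≠ pInf → P ≠ pZero → P.ord h = 0
  /-- the Atkin-Lehner involution -/
  w : FF p ≃ₐ[Qb] FF p
  w_h : w h * h = (p : FF p) ^ 12
  gal_pInf : ∀ σ : GQ, arithmeticGalois (modularFunctionFieldFull p) σ • pInf = pInf
  gal_pZero : ∀ σ : GQ, arithmeticGalois (modularFunctionFieldFull p) σ • pZero = pZero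
  TD_pInf : ∀ (l : ℕ) [NeZero l], l.Prime → l ≠ p →
    TD p l (Finsupp.single pInf 1) = Finsupp.single pInf ((l : ℤ) + 1)
  TD_pZero : ∀ (l : ℕ) [NeZero l], l.Prime → l ≠ p →
    TD p l (Finsupp.single pZero 1) = Finsupp.single pZero ((l : ℤ) + 1)

variable {p : ℕ} [NeZero p]

/-- The residue disc of the cusp `0` modulo `A`: `|h(x)|_A < 1`. -/
def Disc0 (c : Cusp p) (A : ValuationSubring Qb) : Set (Place Qb (FF p)) :=
  {x | Reg x c.h ∧ val x c.h ∈ A.nonunits}

/-- The residue disc of the cusp `∞` modulo `A`: `|h(x)|_A > 1`. -/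
def DiscInf (c : Cusp p) (A : ValuationSubring Qb) : Set (Place Qb (FF p)) :=
  {x | Reg x c.h⁻¹ ∧ val x c.h⁻¹ ∈ A.nonunits}

/-- Classes of degree zero divisors supported in `S`. -/
def KDisc (S : Set (Place Qb (FF p))) : AddSubgroup (JZero p) where
  carrier := {z | ∃ D : Divisor.degZero (K := Qb) (F := FF p), Pic0.mk D = z ∧
    ∀ x : Place Qb (FF p), (D : Divisor Qb (FF p)) x ≠ 0 → x ∈ S}
  zero_mem' := ⟨0, rfl, fun x hx => absurd rfl hx⟩
  add_mem' := by
    rintro _ _ ⟨D, rfl, hD⟩ ⟨E, rfl, hE⟩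
    refine ⟨D + E, rfl, fun x hx => ?_⟩
    by_cases h : (D : Divisor Qb (FF p)) x = 0
    · refine hE x fun h' => hx ?_
      rw [AddSubgroup.coe_add, Finsupp.add_apply, h, h', add_zero]
    · exact hD x h
  neg_mem' := by
    rintro _ ⟨D, rfl, hD⟩
    refine ⟨-D, rfl, fun x hx => hD x fun h => hx ?_⟩
    rw [AddSubgroup.coe_neg, Finsupp.neg_apply, h, neg_zero]

/-- The degree zero divisor `(x) - (y)`. -/
def dz (x y : Place Qb (FF p)) : Divisor.degZero (K := Qb) (F := FF p) :=
  ⟨Finsupp.single x 1 - Finsupp.single y 1, by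
    rw [Divisor.mem_degZero, map_sub, Divisor.degree_single, Divisor.degree_single,
      S26.deg_eq_one_of_isAlgClosed, S26.deg_eq_one_of_isAlgClosed, sub_self]⟩

/-- The cuspidal class `[(0) - (∞)]`. -/
def c0 (c : Cusp p) : JZero p := Pic0.mk (dz c.pZero c.pInf)

/-- **What the end game consumes from part F** (`e` a prime `≠ p`): an operator `S` on `J₀(p)`, which is
a (non commutative) polynomial in the `T_l`, `l ∤ p` (`l = e` allowed), with image `n` under `T_l ↦ 1 + l`, which is the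
identity on the Eisenstein part of `J₀(p)[e]` and kills `J₀(p)(ℚ)` up to torsion. -/
def FOut (p e : ℕ) [NeZero p] : Prop :=
  ∃ (S : JZero p →+ JZero p) (n : ℤ),
    (∀ K : AddSubgroup (JZero p),
      (∀ l : Nat.Primes, ¬ (l : ℕ) ∣ p → ∀ z ∈ K, heckeOperatorBar p l z ∈ K) →
        ∀ z ∈ K, S z ∈ K) ∧
    (∀ z : JZero p,
      (∀ l : Nat.Primes, ¬ (l : ℕ) ∣ p → heckeOperatorBar p l z = ((l : ℕ) + 1) • z) →
        S z = n • z) ∧
    (∀ z : JZero p, e • z = 0 →
      (∀ l : Nat.Primes, ¬ (l : ℕ) ∣ p → heckeOperatorBar p l z = ((l : ℕ) + 1) • z) →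
        S z = z) ∧
    (∀ z : JZero p, (∀ σ : GQ, σ • z = z) → ∃ m : ℕ, 0 < m ∧ m • S z = 0)

/-- **What the end game consumes from part SP** (specialisation at the two cusps). -/
structure SPOut (c : Cusp p) : Prop where
  tf_inf : ∀ (r e : ℕ) (A : ValuationSubring Qb), r.Prime → r ≠ p → A.LiesOverPrime r → e.Prime → e ≠ r →
    ∀ z ∈ KDisc (DiscInf c A), e • z = 0 → z = 0
  tf_zero : ∀ (r e : ℕ) (A : ValuationSubring Qb), r.Prime → r ≠ p → A.LiesOverPrime r → e.Prime → e ≠ r →
    ∀ z ∈ KDisc (Disc0 c A), e • z = 0 → z = 0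
  hecke_inf : ∀ (r : ℕ) (A : ValuationSubring Qb), r.Prime → r ≠ p → A.LiesOverPrime r →
    ∀ l : Nat.Primes, (l : ℕ) ≠ p → ∀ z ∈ KDisc (DiscInf c A), heckeOperatorBar p l z ∈ KDisc (DiscInf c A)
  hecke_zero : ∀ (r : ℕ) (A : ValuationSubring Qb), r.Prime → r ≠ p → A.LiesOverPrime r →
    ∀ l : Nat.Primes, (l : ℕ) ≠ p → ∀ z ∈ KDisc (Disc0 c A), heckeOperatorBar p l z ∈ KDisc (Disc0 c A)
  eis : ∀ (e : ℕ) (A : ValuationSubring Qb), e.Prime → 5 ≤ e → e ∣ p - 1 → A.LiesOverPrime e →
    ∀ m : ℤ, m • c0 c ∈ KDisc (DiscInf c A) → (e : ℤ) ∣ m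

end

end Fermat.Agent.S15.T
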