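import Fermat.Agent.S15.F.Defs
import Fermat.Agent.S15.W.Interface
import Fermat.Agent.S15.P.Main

/-!
# S15 / T / Glue : the exports of parts W (Weil pairing) and P (the prime `p`) in the shapes consumed by part F
-/

set_option autoImplicit false

open AlgebraicCurve ModularCurve

namespace Fermat.Agent.S15.T

open Fermat.Agent.ES Fermat.Agent.S15.F

noncomputable section

variable {p e : ℕ} [NeZero p]

theorem e1NHom_eq_zero_iff (he : e ≠ 0) (a b : Kum p e) : W.e1NHom he a b = 0 ↔ W.e1N a b = 1 := by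
  rw [← W.e1NHom_apply he a b]
  constructor
  · intro h
    rw [h]
    rfl
  · intro h
    have h1 : ((W.e1NHom he a b).toMul : Qbˣ) = 1 := Units.ext h
    exact h1

/-- part W in the shape of `F.IsPairing`. -/
theorem isPairing (he : e.Prime) : IsPairing p e (W.e1NHom (N := p) he.ne_zero) where
  nondeg a ha := by
    obtain ⟨b, hb⟩ := W.e1N_nondeg he ha
    exact ⟨b, fun h => hb ((e1NHom_eq_zero_iff he.ne_zero a b).1 h)⟩
  adj r a b := by
    haveI : NeZero r.1 := ⟨r.2.1.ne_zero⟩
    have h := W.e1N_hecke he.ne_zero r.2.1 (toGood p e r).2.2 a b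
    apply Additive.toMul.injective
    apply Units.ext
    rw [W.e1NHom_apply, W.e1NHom_apply]
    exact h

/-- part P in the shape of `F.IsLocP`. -/
theorem isLocP (hp : p.Prime) (he : e.Prime) (hep : e ≠ p) {Ap : ValuationSubring Qb}
    (hAp : Ap.LiesOverPrime p) : IsLocP p e Ap (W.e1NHom (N := p) he.ne_zero) (P.VP p e Ap) where
  inertia g hg _ σ hσ := by
    have h : P.dq p σ g ∈ Dm p e := by
      have := hg σ
      rwa [div_eq_mul_inv] at this
    have h2 := P.mk_dq_mem_VP hσ g h
    have h3 : coc p e g hg σ = Kum.mk ⟨P.dq p σ g, h⟩ := by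
      unfold coc
      congr 1
    rw [h3]
    exact h2
  iso a ha b hb :=
    (e1NHom_eq_zero_iff he.ne_zero a b).2 (P.VP_isotropic hp he hep Ap hAp a ha.1 b hb.1)

end

end Fermat.Agent.S15.T
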