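import Fermat.Agent.S15.T.End.Main
import Fermat.Agent.S15.T.End.Van
import Fermat.Agent.S15.T.Glue
import Fermat.Agent.S15.C.Export
import Fermat.Agent.S15.SP.Main
import Fermat.Agent.S15.F.Export
import Fermat.Agent.S15.B.LocE
import Fermat.Agent.S54.Frobenius

/-!
# S15 / T / Key : the arithmetic of `X₀(p)` used by S15 (and S12), with all parts plugged in

`key` : for `p ∉ {2, 3, 5, 7, 13}` there is a prime `e ∣ p - 1` such that no `G_ℚ`-fixed place `x` of `X₀(p)` has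
`|h(x)|_{Ar} < 1` at a prime `r ≠ p, e` and `|h(x)|_A > 1` at a prime `ℓ ≠ p` (`ℓ ≥ 5` if `ℓ = e`).
-/

set_option autoImplicit false

open AlgebraicCurve ModularCurve

namespace Fermat.Agent.S15.T

open Fermat.Agent.ES Fermat.Agent.S37 Fermat.Agent.S37.Red

noncomputable section

variable {p : ℕ} [NeZero p]

/-- part F with the parts W, B, P plugged in. -/
theorem fOut (hp : p.Prime) (hp5 : 5 ≤ p) {e : ℕ} (he : e.Prime) (hep : e ≠ p) : FOut p e := by
  obtain ⟨Ae, hAe⟩ := Fermat.Agent.S54.exists_liesOverPrime e he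
  obtain ⟨Ap, hAp⟩ := Fermat.Agent.S54.exists_liesOverPrime p hp
  haveI : NeZero e := ⟨he.ne_zero⟩
  have hep' : ¬ e ∣ p := fun h => hep ((Nat.prime_dvd_prime_iff_eq he hp).mp h)
  exact F.fOut p e hp hp5 he hep hAe hAp (isPairing he) (B.isLocE he hep' hAe (isPairing he))
    (isLocP hp he hep hAp)

/-- a prime dividing the order of a nonzero torsion element. -/
theorem exists_prime_dvd_order {J : Type*} [AddCommGroup J] {z : J} (hz : z ≠ 0) {N : ℕ}
    (hNz : N • z = 0) : ∃ e : ℕ, e.Prime ∧ e ∣ N ∧ ∀ m : ℤ, m • z = 0 → (e : ℤ) ∣ m := by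
  have h1 : addOrderOf z ≠ 1 := fun h => hz (AddMonoid.addOrderOf_eq_one_iff.mp h)
  refine ⟨(addOrderOf z).minFac, Nat.minFac_prime h1,
    (Nat.minFac_dvd _).trans (addOrderOf_dvd_of_nsmul_eq_zero hNz), fun m hm => ?_⟩
  exact (Int.natCast_dvd_natCast.mpr (Nat.minFac_dvd _)).trans
    (addOrderOf_dvd_iff_zsmul_eq_zero.mpr hm)

/-- **The key theorem**, in terms of the discs. -/
theorem key_disc [Fact p.Prime] (hp' : p ∉ ({2, 3, 5, 7, 13} : Finset ℕ)) :
    ∃ e : ℕ, e.Prime ∧ e ∣ p - 1 ∧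
      ∀ (x : Place Qb (FF p)),
        (∀ σ : GQ, arithmeticGalois (modularFunctionFieldFull p) σ • x = x) →
        ∀ (r : ℕ) (Ar : ValuationSubring Qb) (ℓ : ℕ) (A : ValuationSubring Qb),
          r.Prime → r ≠ p → e ≠ r → Ar.LiesOverPrime r → x ∈ Disc0 (C.cusp p) Ar →
          ℓ.Prime → ℓ ≠ p → (ℓ = e → 5 ≤ ℓ) → A.LiesOverPrime ℓ → x ∈ DiscInf (C.cusp p) A → False := by
  have hp : p.Prime := Fact.out
  have hp1 : 1 < p := hp.one_lt
  have hp5 : 5 ≤ p := by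
    simp only [Finset.mem_insert, Finset.mem_singleton, not_or] at hp'
    obtain ⟨h2, h3, -, -, -⟩ := hp'
    by_contra hlt
    have h4 : p = 4 := by omega
    rw [h4] at hp
    exact absurd hp (by norm_num)
  obtain ⟨e, he, hep1, hc0⟩ := exists_prime_dvd_order (C.T_c0_ne_zero p hp')
    (sub_one_smul_c0 (C.cusp p) hp1)
  have hep : e ≠ p := by
    rintro rfl
    have := Nat.le_of_dvd (by omega) hep1
    omega
  refine ⟨e, he, hep1, fun x hx r Ar ℓ A hr hrp hre hAr hx0 hℓ hℓp hℓ5 hA hxI => ?_⟩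
  exact endGame hp (C.cusp p) (SP.spOut hp (C.cusp p)) he hep (fOut hp hp5 he hep) hc0 x hx hr hrp hre
    hAr hx0 hℓ hℓp hℓ5 hA hxI

/-- **The key theorem**, in terms of the value of the modular unit `h = Δ(q)/Δ(q^p)`. -/
theorem key [Fact p.Prime] (hp' : p ∉ ({2, 3, 5, 7, 13} : Finset ℕ)) :
    ∃ e : ℕ, e.Prime ∧ e ∣ p - 1 ∧
      ∀ (x : Place Qb (FF p)),
        (∀ σ : GQ, arithmeticGalois (modularFunctionFieldFull p) σ • x = x) →
        ∀ (a : Qb), Van x (A.Pl.hQ p - algebraMap Qb (FF p) a) →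
        ∀ (r : ℕ) (Ar : ValuationSubring Qb) (ℓ : ℕ) (A : ValuationSubring Qb),
          r.Prime → r ≠ p → e ≠ r → Ar.LiesOverPrime r → Ar.valuation a < 1 →
          ℓ.Prime → ℓ ≠ p → (ℓ = e → 5 ≤ ℓ) → A.LiesOverPrime ℓ → 1 < A.valuation a → False := by
  obtain ⟨e, he, hep1, h⟩ := key_disc (p := p) hp'
  refine ⟨e, he, hep1, fun x hx a hxa r Ar ℓ A hr hrp hre hAr har hℓ hℓp hℓ5 hA ha => ?_⟩
  exact h x hx r Ar ℓ A hr hrp hre hAr (mem_Disc0_of_van (C.cusp p) hxa har) hℓ hℓp hℓ5 hA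
    (mem_DiscInf_of_van (C.cusp p) hxa ha)

end

end Fermat.Agent.S15.T
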