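import Fermat.Agent.S15.T.Key
import Fermat.Agent.S15.A.Export

/-!
# S15 / T / Final : the frozen statement of S15 from `T.key_disc` and the dictionary `A.main'`
-/

set_option autoImplicit false

open WeierstrassCurve WeierstrassCurve.Affine AlgebraicCurve ModularCurve

namespace Fermat.Agent.S15.T

open Fermat.Agent.ES Fermat.Agent.S37 Fermat.Agent.S37.Red

theorem final {p : ℕ} (hp : p.Prime) (hp' : p ∉ ({2, 3, 5, 7, 13} : Finset ℕ))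
    (W : WeierstrassCurve ℤ) (hΔ : W.Δ ≠ 0)
    (Q : ((W.map (Int.castRingHom ℚ))⁄(AlgebraicClosure ℚ)).Point)
    (hQfix : ∀ σ : AlgebraicClosure ℚ ≃ₐ[ℚ] AlgebraicClosure ℚ, σ • Q = Q)
    (hQord : addOrderOf Q = p)
    (h2Δ : (2 : ℤ) ∣ W.Δ) (h2c₄ : ¬ (2 : ℤ) ∣ W.c₄)
    (h2 : ∀ A : ValuationSubring (AlgebraicClosure ℚ), A.LiesOverPrime 2 → ¬ W.InZeroComponentAt A Q)
    (h3Δ : (3 : ℤ) ∣ W.Δ) (h3c₄ : ¬ (3 : ℤ) ∣ W.c₄)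
    (h3 : ∀ A : ValuationSubring (AlgebraicClosure ℚ), A.LiesOverPrime 3 → ¬ W.InZeroComponentAt A Q)
    {ℓ : ℕ} (hℓ : ℓ.Prime) (hℓp : ℓ ≠ p) (hℓΔ : (ℓ : ℤ) ∣ W.Δ) (hℓc₄ : ¬ (ℓ : ℤ) ∣ W.c₄)
    (A : ValuationSubring (AlgebraicClosure ℚ)) (hA : A.LiesOverPrime ℓ) :
    ¬ W.InZeroComponentAt A Q := by
  intro hin
  haveI : Fact p.Prime := ⟨hp⟩
  have hp23 : p ≠ 2 ∧ p ≠ 3 := by
    simp only [Finset.mem_insert, Finset.mem_singleton, not_or] at hp'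
    exact ⟨hp'.1, hp'.2.1⟩
  obtain ⟨hp2, hp3⟩ := hp23
  obtain ⟨e, he, -, hkey⟩ := key_disc (p := p) hp'
  obtain ⟨x, hloc, hfix⟩ := S15.A.main' (C.cusp p) rfl hp2 hΔ Q hQfix hQord h2c₄
  have hx := hfix ⟨ℓ, A, hℓ, hℓp, hℓΔ, hℓc₄, hA, hin⟩
  have hℓ2 : ℓ ≠ 2 := by
    rintro rfl
    exact h2 A hA hin
  have hℓ3 : ℓ ≠ 3 := by
    rintro rfl
    exact h3 A hA hin
  have hℓ5 : 5 ≤ ℓ := by
    have h2le := hℓ.two_le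
    by_contra hlt
    have h4 : ℓ = 4 := by omega
    subst h4
    exact absurd hℓ (by norm_num)
  have hxI : x ∈ DiscInf (C.cusp p) A := (hloc ℓ hℓ hℓp hℓΔ hℓc₄ A hA).1 hin
  by_cases he3 : e = 3
  · obtain ⟨Ar, hAr⟩ := Fermat.Agent.S54.exists_liesOverPrime 2 Nat.prime_two
    exact hkey x hx 2 Ar ℓ A Nat.prime_two (Ne.symm hp2) (by omega) hAr
      ((hloc 2 Nat.prime_two (Ne.symm hp2) h2Δ h2c₄ Ar hAr).2 (h2 Ar hAr)) hℓ hℓp (fun _ => hℓ5) hA hxI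
  · obtain ⟨Ar, hAr⟩ := Fermat.Agent.S54.exists_liesOverPrime 3 Nat.prime_three
    exact hkey x hx 3 Ar ℓ A Nat.prime_three (Ne.symm hp3) he3 hAr
      ((hloc 3 Nat.prime_three (Ne.symm hp3) h3Δ h3c₄ Ar hAr).2 (h3 Ar hAr)) hℓ hℓp (fun _ => hℓ5) hA hxI

end Fermat.Agent.S15.T
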